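import Mathlib
import Fermat.Prelude.Def_GaloisRep_LocalConditions
import Fermat.Agent.S30.Algebra.Cyclotomic

/-!
# PROJECT T (S56), Galois wrapper [GW2]: the mod `N` cyclotomic character of `Gal(ℚ̄/ℚ)`

* `chi N : G_ℚ →* (ZMod N)ˣ`, characterised by `g t = t ^ (chi N g).val` on `μ_N`;
* `chi_surjective` (irreducibility of the cyclotomic polynomials over `ℚ`);
* `chi_eq_one_iff` : `chi N g = 1` iff `g` fixes `μ_N`;
* `det_eq_chi` : a residual representation with cyclotomic determinant has `det ρbar g = chi g`.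
-/

set_option autoImplicit false
set_option linter.unusedSectionVars false
set_option linter.style.haveILetI false

noncomputable section

namespace Fermat.Agent.S56.Cheb.Galois.CycChar

open Polynomial Fermat.Agent.S30.Algebra.Cyclotomic

local notation "Qb" => AlgebraicClosure ℚ

variable (N : ℕ) [NeZero N]

theorem exists_primitiveRoot : ∃ ζ : Qb, IsPrimitiveRoot ζ N :=
  HasEnoughRootsOfUnity.exists_primitiveRoot Qb N

theorem card_rootsOfUnity : Nat.card (rootsOfUnity N Qb) = N := by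
  obtain ⟨ζ, hζ⟩ := exists_primitiveRoot N
  exact hζ.card_rootsOfUnity

/-- The mod `N` cyclotomic character of `Gal(ℚ̄/ℚ)`. -/
def chi : (Qb ≃ₐ[ℚ] Qb) →* (ZMod N)ˣ :=
  (modularCyclotomicCharacter Qb (card_rootsOfUnity N)).comp toRingAut

theorem chi_spec (g : Qb ≃ₐ[ℚ] Qb) (t : Qb) (ht : t ^ N = 1) :
    g t = t ^ ((chi N g : (ZMod N)ˣ) : ZMod N).val := by
  have hN : N ≠ 0 := NeZero.ne N
  have ht0 : t ≠ 0 := by
    rintro rfl
    rw [zero_pow hN] at ht
    exact zero_ne_one ht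
  have hmem : Units.mk0 t ht0 ∈ rootsOfUnity N Qb := by
    rw [mem_rootsOfUnity]
    ext
    simpa using ht
  have h := modularCyclotomicCharacter.spec Qb (card_rootsOfUnity N) (toRingAut g) hmem
  simpa [chi] using h

theorem pow_eq_pow_modEq {ζ : Qb} (hζ : IsPrimitiveRoot ζ N) {a b : ℕ} (h : ζ ^ a = ζ ^ b) :
    a ≡ b [MOD N] := by
  have hpos : 0 < N := Nat.pos_of_ne_zero (NeZero.ne N)
  have hfin : IsOfFinOrder ζ := isOfFinOrder_iff_pow_eq_one.mpr ⟨N, hpos, hζ.pow_eq_one⟩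
  have := hfin.pow_eq_pow_iff_modEq.mp h
  rwa [← hζ.eq_orderOf] at this

theorem chi_eq_of_pow (g : Qb ≃ₐ[ℚ] Qb) (a : ℕ) (h : ∀ t : Qb, t ^ N = 1 → g t = t ^ a) :
    ((chi N g : (ZMod N)ˣ) : ZMod N) = (a : ZMod N) := by
  obtain ⟨ζ, hζ⟩ := exists_primitiveRoot N
  have h1 := chi_spec N g ζ hζ.pow_eq_one
  rw [h ζ hζ.pow_eq_one] at h1
  have h2 := pow_eq_pow_modEq N hζ h1
  have h3 : ((a : ℕ) : ZMod N) = ((((chi N g : (ZMod N)ˣ) : ZMod N).val : ℕ) : ZMod N) :=
    (ZMod.natCast_eq_natCast_iff _ _ _).mpr h2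
  rw [h3, ZMod.natCast_val, ZMod.cast_id', id]

theorem chi_eq_one_iff (g : Qb ≃ₐ[ℚ] Qb) :
    chi N g = 1 ↔ ∀ t : Qb, t ^ N = 1 → g t = t := by
  constructor
  · intro h t ht
    by_cases h1 : N = 1
    · subst h1
      rw [pow_one] at ht
      rw [ht, map_one]
    have : Fact (1 < N) := ⟨lt_of_le_of_ne (Nat.pos_of_ne_zero (NeZero.ne N)) (Ne.symm h1)⟩
    have h2 := chi_spec N g t ht
    rw [h, Units.val_one, ZMod.val_one, pow_one] at h2
    exact h2
  · intro h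
    apply Units.ext
    have := chi_eq_of_pow N g 1 (fun t ht => by rw [h t ht, pow_one])
    rw [this, Nat.cast_one, Units.val_one]

/-- **The mod `N` cyclotomic character is surjective** (irreducibility of the cyclotomic
polynomials over `ℚ`). -/
theorem chi_surjective : Function.Surjective (chi N) := by
  intro u
  obtain ⟨ζ, hζ⟩ := exists_primitiveRoot N
  have hpos : 0 < N := Nat.pos_of_ne_zero (NeZero.ne N)
  set a : ℕ := ((u : (ZMod N)ˣ) : ZMod N).val with ha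
  have hcop : a.Coprime N := ZMod.val_coe_unit_coprime u
  have hζa : IsPrimitiveRoot (ζ ^ a) N := hζ.pow_of_coprime a hcop
  haveI : IsAlgClosure ℚ Qb := ⟨inferInstance, AlgebraicClosure.isAlgebraic ℚ⟩
  haveI : Normal ℚ Qb := IsAlgClosure.normal ℚ Qb
  have halg : IsAlgebraic ℚ ζ := (AlgebraicClosure.isAlgebraic ℚ).isAlgebraic ζ
  have hev : aeval (ζ ^ a) (minpoly ℚ ζ) = 0 := by
    rw [← cyclotomic_eq_minpoly_rat hζ hpos, cyclotomic_eq_minpoly_rat hζa hpos]
    exact minpoly.aeval ℚ _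
  obtain ⟨g, hg⟩ := minpoly.exists_algEquiv_of_root' halg hev
  refine ⟨g, ?_⟩
  apply Units.ext
  have h1 := chi_spec N g ζ hζ.pow_eq_one
  rw [hg] at h1
  have h2 := pow_eq_pow_modEq N hζ h1
  have h3 : ((a : ℕ) : ZMod N) = ((((chi N g : (ZMod N)ˣ) : ZMod N).val : ℕ) : ZMod N) :=
    (ZMod.natCast_eq_natCast_iff _ _ _).mpr h2
  have h4 : ((((u : (ZMod N)ˣ) : ZMod N).val : ℕ) : ZMod N) = ((u : (ZMod N)ˣ) : ZMod N) := by
    rw [ZMod.natCast_val, ZMod.cast_id', id]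
  have h5 : (((((chi N g : (ZMod N)ˣ) : ZMod N).val : ℕ)) : ZMod N) =
      ((chi N g : (ZMod N)ˣ) : ZMod N) := by
    rw [ZMod.natCast_val, ZMod.cast_id', id]
  exact h5.symm.trans (h3.symm.trans h4)

/-- A residual representation with cyclotomic determinant: `det ρbar g = chi_{p^n} g` in `k`. -/
theorem det_eq_chi {k : Type} [Field k] (p : ℕ) [Fact p.Prime] (ρbar : ResidualGaloisRep k)
    (hdet : (GaloisRepAdic.ofResidualGaloisRep ρbar).DetIsCyclotomic p) (n : ℕ)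
    (g : Qb ≃ₐ[ℚ] Qb) :
    haveI : NeZero (p ^ (n + 1)) := ⟨pow_ne_zero _ (Fact.out : p.Prime).ne_zero⟩
    LinearMap.det (ρbar.ρ g) =
      ((((chi (p ^ (n + 1)) g : (ZMod (p ^ (n + 1)))ˣ) : ZMod (p ^ (n + 1))).val : ℕ) : k) := by
  haveI : NeZero (p ^ (n + 1)) := ⟨pow_ne_zero _ (Fact.out : p.Prime).ne_zero⟩
  obtain ⟨hp, h⟩ := hdet
  have hbot : IsLocalRing.maximalIdeal k = ⊥ :=
    (Ideal.eq_bot_or_top _).resolve_right (Ideal.IsMaximal.ne_top inferInstance)
  have hp0 : (p : k) = 0 := by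
    rw [hbot] at hp
    exact hp
  have h1 := h (n + 1) g _ (fun μ hμ => chi_spec (p ^ (n + 1)) g μ hμ)
  have h0 : ((p ^ (n + 1) : ℕ) : k) = 0 := by
    rw [Nat.cast_pow, hp0, zero_pow (Nat.succ_ne_zero n)]
  rw [h0, Ideal.span_singleton_eq_bot.mpr rfl, Ideal.mem_bot, sub_eq_zero] at h1
  exact h1

/-- the characteristic of `k` is `p` -/
theorem charP_of_detIsCyclotomic {k : Type} [Field k] (p : ℕ) [Fact p.Prime]
    (ρbar : ResidualGaloisRep k)
    (hdet : (GaloisRepAdic.ofResidualGaloisRep ρbar).DetIsCyclotomic p) : CharP k p := by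
  obtain ⟨hp, -⟩ := hdet
  have hbot : IsLocalRing.maximalIdeal k = ⊥ :=
    (Ideal.eq_bot_or_top _).resolve_right (Ideal.IsMaximal.ne_top inferInstance)
  have hp0 : (p : k) = 0 := by
    rw [hbot] at hp
    exact hp
  exact (CharP.charP_iff_prime_eq_zero (Fact.out : p.Prime)).mpr hp0

end Fermat.Agent.S56.Cheb.Galois.CycChar
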