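import Mathlib

/-!
# PROJECT T (S56), Galois wrapper: descent of a common eigenvector of `2 × 2` matrices

If a family of `2 × 2` matrices over an algebraically closed field `Ω` has a common eigenvector over
some extension field `Ω'`, it has one over `Ω`.
-/

set_option autoImplicit false

namespace Fermat.Agent.S56.Cheb.Galois.Descent

open Matrix Polynomial

/-- the binary quadratic form whose zeros are the eigenlines of a `2 × 2` matrix -/
def qf {F : Type*} [CommRing F] (A : Matrix (Fin 2) (Fin 2) F) (x y : F) : F :=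
  A 0 1 * y ^ 2 + (A 0 0 - A 1 1) * x * y - A 1 0 * x ^ 2

theorem qf_map {F F' : Type*} [CommRing F] [CommRing F'] (f : F →+* F')
    (A : Matrix (Fin 2) (Fin 2) F) (x y : F) : qf (A.map f) (f x) (f y) = f (qf A x y) := by
  simp [qf, Matrix.map_apply]

theorem qf_eq_zero_of_eigen {F : Type*} [Field F] (A : Matrix (Fin 2) (Fin 2) F) (v : Fin 2 → F)
    (μ : F) (h : A *ᵥ v = μ • v) : qf A (v 0) (v 1) = 0 := by
  have h0 := congrFun h 0
  have h1 := congrFun h 1
  simp only [Matrix.mulVec, dotProduct, Fin.sum_univ_two, Pi.smul_apply, smul_eq_mul] at h0 h1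
  unfold qf
  linear_combination (v 1) * h0 - (v 0) * h1

theorem exists_eigen_of_qf_eq_zero {F : Type*} [Field F] (A : Matrix (Fin 2) (Fin 2) F)
    (v : Fin 2 → F) (hv : v ≠ 0) (h : qf A (v 0) (v 1) = 0) : ∃ μ : F, A *ᵥ v = μ • v := by
  unfold qf at h
  by_cases hy : v 1 = 0
  · have hx : v 0 ≠ 0 := by
      intro hx
      apply hv
      ext i
      fin_cases i
      · exact hx
      · exact hy
    have hc : A 1 0 = 0 := by
      rw [hy] at h
      have : A 1 0 * v 0 ^ 2 = 0 := by linear_combination -h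
      rcases mul_eq_zero.mp this with h1 | h1
      · exact h1
      · exact absurd ((pow_eq_zero_iff two_ne_zero).mp h1) hx
    refine ⟨A 0 0, ?_⟩
    ext i
    fin_cases i
    · simp [Matrix.mulVec, dotProduct, Fin.sum_univ_two, hy]
    · simp [Matrix.mulVec, dotProduct, Fin.sum_univ_two, hy, hc]
  · refine ⟨(A 1 0 * v 0 + A 1 1 * v 1) / v 1, ?_⟩
    ext i
    fin_cases i
    · simp only [Matrix.mulVec, dotProduct, Fin.sum_univ_two, Pi.smul_apply, smul_eq_mul,
        Fin.zero_eta, Fin.isValue]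
      field_simp
      linear_combination h
    · simp only [Matrix.mulVec, dotProduct, Fin.sum_univ_two, Pi.smul_apply, smul_eq_mul,
        Fin.mk_one, Fin.isValue]
      field_simp

variable {Ω Ω' : Type*} [Field Ω] [Field Ω'] [Algebra Ω Ω']

/-- **descent of a common eigenvector** from an extension to an algebraically closed field -/
theorem exists_common_eigenvector [IsAlgClosed Ω] (𝒜 : Set (Matrix (Fin 2) (Fin 2) Ω))
    (v : Fin 2 → Ω') (hv : v ≠ 0)
    (h : ∀ A ∈ 𝒜, ∃ μ : Ω', (A.map (algebraMap Ω Ω')) *ᵥ v = μ • v) :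
    ∃ w : Fin 2 → Ω, w ≠ 0 ∧ ∀ A ∈ 𝒜, ∃ μ : Ω, A *ᵥ w = μ • w := by
  have hinj : Function.Injective (algebraMap Ω Ω') := (algebraMap Ω Ω').injective
  have hq : ∀ A ∈ 𝒜, qf (A.map (algebraMap Ω Ω')) (v 0) (v 1) = 0 := fun A hA => by
    obtain ⟨μ, hμ⟩ := h A hA
    exact qf_eq_zero_of_eigen _ v μ hμ
  -- it suffices to find a nonzero zero of all the quadratic forms over `Ω`
  suffices hs : ∃ x y : Ω, (x ≠ 0 ∨ y ≠ 0) ∧ ∀ A ∈ 𝒜, qf A x y = 0 by
    obtain ⟨x, y, hxy, hA⟩ := hs
    refine ⟨![x, y], ?_, fun A hA' => exists_eigen_of_qf_eq_zero A _ ?_ (by simpa using hA A hA')⟩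
    · intro h0
      have h1 := congrFun h0 0
      have h2 := congrFun h0 1
      simp at h1 h2
      rcases hxy with hx | hy
      · exact hx h1
      · exact hy h2
    · intro h0
      have h1 := congrFun h0 0
      have h2 := congrFun h0 1
      simp at h1 h2
      rcases hxy with hx | hy
      · exact hx h1
      · exact hy h2
  by_cases hall : ∀ A ∈ 𝒜, A 1 0 = 0
  · -- `(1, 0)` is a common eigenvector
    exact ⟨1, 0, Or.inl one_ne_zero, fun A hA => by simp [qf, hall A hA]⟩
  push Not at hall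
  obtain ⟨A₀, hA₀, hc₀⟩ := hall
  -- now `v 1 ≠ 0`
  have hy : v 1 ≠ 0 := by
    intro hy
    have h1 := hq A₀ hA₀
    unfold qf at h1
    rw [hy] at h1
    simp only [Matrix.map_apply] at h1
    have hx : v 0 ≠ 0 := by
      intro hx
      apply hv
      ext i
      fin_cases i
      · exact hx
      · exact hy
    have : algebraMap Ω Ω' (A₀ 1 0) * v 0 ^ 2 = 0 := by linear_combination -h1
    rcases mul_eq_zero.mp this with h2 | h2
    · exact hc₀ (hinj (by rw [h2, map_zero]))
    · exact hx ((pow_eq_zero_iff two_ne_zero).mp h2)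
  set t : Ω' := v 0 / v 1 with ht
  -- `t` is a root of a nonzero polynomial over `Ω`
  have hroot : ∀ A ∈ 𝒜, qf (A.map (algebraMap Ω Ω')) t 1 = 0 := by
    intro A hA
    have h1 := hq A hA
    unfold qf at h1 ⊢
    rw [ht]
    field_simp
    linear_combination h1
  have halg : IsAlgebraic Ω t := by
    refine ⟨C (A₀ 0 1) + C (A₀ 0 0 - A₀ 1 1) * X - C (A₀ 1 0) * X ^ 2, ?_, ?_⟩
    · intro h0
      have := congrArg (fun q => Polynomial.coeff q 2) h0
      simp at this
      exact hc₀ this
    · have h1 := hroot A₀ hA₀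
      unfold qf at h1
      simp only [Matrix.map_apply] at h1
      simp only [map_add, map_sub, map_mul, map_pow, aeval_C, aeval_X]
      linear_combination h1
  have hint : IsIntegral Ω t := halg.isIntegral
  have hdeg : (minpoly Ω t).degree = 1 :=
    IsAlgClosed.degree_eq_one_of_irreducible Ω (minpoly.irreducible hint)
  obtain ⟨t₀, ht₀⟩ := minpoly.mem_range_of_degree_eq_one Ω t hdeg
  refine ⟨t₀, 1, Or.inr one_ne_zero, fun A hA => ?_⟩
  apply hinj
  rw [← qf_map, ht₀, map_one, map_zero]
  exact hroot A hA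

end Fermat.Agent.S56.Cheb.Galois.Descent
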