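import Mathlib
import Fermat.Prelude.Def_GaloisRep_Residual
import Fermat.Agent.S56.Cheb.Galois.Descent

/-!
# PROJECT T (S56), Galois wrapper [GW3a]: irreducibility in matrix form

From `habs` (absolute irreducibility) and `hTW` (irreducibility of the restriction to subgroups of
index `2` over every extension of `k`) of the frozen S56: for the matrices of `ρbar` in a basis,
no subgroup of index `1` or `2` has a common eigenvector over any extension field `K` of `k`.
-/

set_option autoImplicit false
set_option linter.unusedSectionVars false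
set_option linter.style.haveILetI false

noncomputable section

namespace Fermat.Agent.S56.Cheb.Galois.Irr

open Matrix TensorProduct

local notation "Qb" => AlgebraicClosure ℚ

variable {k : Type} [Field k] (ρbar : ResidualGaloisRep k) (b : Module.Basis (Fin 2) k ρbar.V)

/-- a common eigenvector of the matrices of `ρbar` on `H` over `K` gives an `H`-stable line in the
base change of `ρbar` to `K` -/
theorem exists_stable_line (K : Type) [Field K] [Algebra k K] (H : Subgroup (Qb ≃ₐ[ℚ] Qb))
    (v : Fin 2 → K) (hv : v ≠ 0)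
    (h : ∀ σ ∈ H, ∃ μ : K,
      ((LinearMap.toMatrix b b (ρbar.ρ σ)).map (algebraMap k K)) *ᵥ v = μ • v) :
    ∃ W : Submodule K (ρbar.baseChange K).V,
      (∀ σ ∈ H, ∀ x ∈ W, (ρbar.baseChange K).ρ σ x ∈ W) ∧ W ≠ ⊥ ∧ W ≠ ⊤ := by
  classical
  set bK : Module.Basis (Fin 2) K (K ⊗[k] ρbar.V) := Algebra.TensorProduct.basis K b with hbK
  set v' : K ⊗[k] ρbar.V := bK.equivFun.symm v with hv'def
  have hrepr : bK.equivFun v' = v := by rw [hv'def, LinearEquiv.apply_symm_apply]
  have hv' : v' ≠ 0 := by
    intro h0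
    apply hv
    rw [← hrepr, h0, map_zero]
  have hact : ∀ σ ∈ H, ∃ μ : K, (ρbar.ρ σ).baseChange K v' = μ • v' := by
    intro σ hσ
    obtain ⟨μ, hμ⟩ := h σ hσ
    refine ⟨μ, bK.equivFun.injective ?_⟩
    have h1 := LinearMap.toMatrix_mulVec_repr bK bK ((ρbar.ρ σ).baseChange K) v'
    rw [hbK, LinearMap.toMatrix_baseChange, ← hbK] at h1
    have h2 : ⇑(bK.repr v') = v := hrepr
    rw [h2, hμ] at h1
    rw [map_smul, hrepr]
    exact h1.symm
  refine ⟨K ∙ v', ?_, ?_, ?_⟩
  · intro σ hσ x hx
    obtain ⟨c, rfl⟩ := Submodule.mem_span_singleton.mp hx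
    obtain ⟨μ, hμ⟩ := hact σ hσ
    show (ρbar.ρ σ).baseChange K (c • v') ∈ _
    rw [map_smul, hμ]
    exact Submodule.smul_mem _ _ (Submodule.smul_mem _ _ (Submodule.mem_span_singleton_self _))
  · rw [Ne, Submodule.span_singleton_eq_bot]
    exact hv'
  · intro htop
    have h1 : Module.finrank K (K ∙ v') = 1 := finrank_span_singleton hv'
    have h2 : Module.finrank K (K ⊗[k] ρbar.V) = 2 := by
      rw [Module.finrank_baseChange, ρbar.finrank_eq]
    rw [htop, finrank_top, h2] at h1
    exact absurd h1 (by norm_num)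

/-- **[GW3a]** no subgroup of index `1` or `2` has a common eigenvector over any extension of `k`. -/
theorem irr_of_habs_hTW (habs : ρbar.IsAbsolutelyIrreducible)
    (hTW : ∀ (K : Type) [Field K] [Algebra k K] (G : Subgroup (Qb ≃ₐ[ℚ] Qb)), G.index = 2 →
      ∀ V : Submodule K (ρbar.baseChange K).V,
        (∀ σ ∈ G, ∀ x ∈ V, (ρbar.baseChange K).ρ σ x ∈ V) → V = ⊥ ∨ V = ⊤)
    (H : Subgroup (Qb ≃ₐ[ℚ] Qb)) (hH : H.index = 1 ∨ H.index = 2)
    (K : Type) [Field K] [Algebra k K] (v : Fin 2 → K) (hv : v ≠ 0) :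
    ¬ ∀ σ ∈ H, ∃ μ : K,
      ((LinearMap.toMatrix b b (ρbar.ρ σ)).map (algebraMap k K)) *ᵥ v = μ • v := by
  intro h
  rcases hH with hH | hH
  · -- index one: descend to the algebraic closure of `k`
    have hHtop : H = ⊤ := Subgroup.index_eq_one.mp hH
    let ι : AlgebraicClosure k →ₐ[k] AlgebraicClosure K := IsAlgClosed.lift
    letI : Algebra (AlgebraicClosure k) (AlgebraicClosure K) := ι.toRingHom.toAlgebra
    have hι : ∀ a : k, algebraMap (AlgebraicClosure k) (AlgebraicClosure K)
        (algebraMap k (AlgebraicClosure k) a) = algebraMap K (AlgebraicClosure K)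
          (algebraMap k K a) := by
      intro a
      have h1 : ι (algebraMap k (AlgebraicClosure k) a) = algebraMap k (AlgebraicClosure K) a :=
        ι.commutes a
      rw [IsScalarTower.algebraMap_apply k K (AlgebraicClosure K)] at h1
      exact h1
    let 𝒜 : Set (Matrix (Fin 2) (Fin 2) (AlgebraicClosure k)) :=
      {A | ∃ σ : Qb ≃ₐ[ℚ] Qb,
        A = (LinearMap.toMatrix b b (ρbar.ρ σ)).map (algebraMap k (AlgebraicClosure k))}
    let v'' : Fin 2 → AlgebraicClosure K := fun i => algebraMap K (AlgebraicClosure K) (v i)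
    have hv'' : v'' ≠ 0 := by
      intro h0
      apply hv
      ext i
      have := congrFun h0 i
      exact (algebraMap K (AlgebraicClosure K)).injective (by simpa [v''] using this)
    have hcommon : ∀ A ∈ 𝒜, ∃ μ : AlgebraicClosure K,
        (A.map (algebraMap (AlgebraicClosure k) (AlgebraicClosure K))) *ᵥ v'' = μ • v'' := by
      rintro A ⟨σ, rfl⟩
      obtain ⟨μ, hμ⟩ := h σ (hHtop ▸ Subgroup.mem_top σ)
      refine ⟨algebraMap K (AlgebraicClosure K) μ, ?_⟩
      have e1 : ((LinearMap.toMatrix b b (ρbar.ρ σ)).map (algebraMap k (AlgebraicClosure k))).map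
          (algebraMap (AlgebraicClosure k) (AlgebraicClosure K)) =
          ((LinearMap.toMatrix b b (ρbar.ρ σ)).map (algebraMap k K)).map
            (algebraMap K (AlgebraicClosure K)) := by
        ext i j
        simp only [Matrix.map_apply]
        exact hι _
      rw [e1]
      ext i
      have h2 := RingHom.map_mulVec (algebraMap K (AlgebraicClosure K))
        ((LinearMap.toMatrix b b (ρbar.ρ σ)).map (algebraMap k K)) v i
      have h3 : ((LinearMap.toMatrix b b (ρbar.ρ σ)).map (algebraMap k K)).map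
          (algebraMap K (AlgebraicClosure K)) *ᵥ v'' = fun i =>
            algebraMap K (AlgebraicClosure K)
              ((((LinearMap.toMatrix b b (ρbar.ρ σ)).map (algebraMap k K)) *ᵥ v) i) := by
        ext i
        exact (RingHom.map_mulVec (algebraMap K (AlgebraicClosure K))
          ((LinearMap.toMatrix b b (ρbar.ρ σ)).map (algebraMap k K)) v i).symm
      rw [h3, hμ]
      simp [v'']
    obtain ⟨w, hw, hwA⟩ := Descent.exists_common_eigenvector 𝒜 v'' hv'' hcommon
    obtain ⟨W, hW1, hW2, hW3⟩ := exists_stable_line ρbar b (AlgebraicClosure k) ⊤ w hw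
      (fun σ _ => hwA _ ⟨σ, rfl⟩)
    rcases habs W (fun σ x hx => hW1 σ (Subgroup.mem_top σ) x hx) with h1 | h1
    · exact hW2 h1
    · exact hW3 h1
  · -- index two
    obtain ⟨W, hW1, hW2, hW3⟩ := exists_stable_line ρbar b K H v hv h
    rcases hTW K H hH W hW1 with h1 | h1
    · exact hW2 h1
    · exact hW3 h1

end Fermat.Agent.S56.Cheb.Galois.Irr
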