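import Mathlib
import Fermat.Agent.S56.Grp.Defs
import Fermat.Agent.S56.Grp.Basic
import Fermat.Agent.S56.Grp.Stable
import Fermat.Agent.S56.Cheb.Dict
import Fermat.Agent.S56.Cheb.TW
import Fermat.Agent.S56.Cheb.Galois.CycChar
import Fermat.Agent.S56.Cheb.Galois.Irr

/-!
# PROJECT T (S56), the Galois wrapper of block (a5): from the group theory of the Taylor–Wiles
primes (`S56/Grp`) and the Frobenius density theorem (`S56/Cheb/Dict`) to Taylor–Wiles primes in the
language of the Prelude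

* `Descend` : descent of `(rbar, χ, ψ)` along a surjective homomorphism `f : Γ →* G` whose kernel
  acts trivially: `piOf`, `cOf`, the cocycle property, non-triviality, the Taylor–Wiles set;
* `exists_level` : a finite Galois level `L ⊆ ℚ̄` containing `μ_{p^(n+1)}`, a given finite level, and
  through which `ρbar` factors;
* `twHyp` : the hypotheses `TWHyp` of `S56/Grp` for `G = Gal(L/ℚ)`, from `habs`, `hdet`, `hsplit`,
  `hTW` of the frozen S56;
* `exists_tw_prime_of_cocycle` : **the export of block (a5)**: for a cocycle `ψ : G_ℚ → ad⁰(1)` of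
  finite level which is not a coboundary, every `n` and every finite `S` there is a prime `l ∉ S`,
  `l ≡ 1 mod p^(n+1)`, at which `ρbar` and `ψ` are unramified, such that for EVERY place over `l` and
  EVERY Frobenius element `φ` there: `ρbar φ` has two distinct eigenvalues in `k` and `ψ φ` is not in
  `(φ - 1) ad⁰(1)`.
-/

set_option autoImplicit false
set_option linter.unusedSectionVars false
set_option linter.style.haveILetI false

noncomputable section

namespace Fermat.Agent.S56.Cheb.Galois.Wrapper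

open Polynomial Matrix Fermat.Agent.S56.Grp

local notation "Qb" => AlgebraicClosure ℚ
local notation "Mat2" => Matrix (Fin 2) (Fin 2)

/-! ### Descent along a surjective homomorphism -/

section Descend

variable {k : Type} [Field k] {Γ G : Type} [Group Γ] [Group G] (f : Γ →* G)
  (hf : Function.Surjective f)

/-- the descended homomorphism -/
def piOf {M : Type} [Group M] (r : Γ →* M) (hr : f.ker ≤ r.ker) : G →* M :=
  f.liftOfSurjective hf ⟨r, hr⟩

theorem piOf_apply {M : Type} [Group M] (r : Γ →* M) (hr : f.ker ≤ r.ker) (g : Γ) :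
    piOf f hf r hr (f g) = r g :=
  f.liftOfRightInverse_comp_apply (Function.surjInv hf) (Function.rightInverse_surjInv hf)
    ⟨r, hr⟩ g

/-- the descended function -/
def cOf (ψ : Γ → Mat2 k) : G → Mat2 k := fun γ => ψ (Function.surjInv hf γ)

theorem cOf_apply (ψ : Γ → Mat2 k) (hψN : ∀ g, ∀ x ∈ f.ker, ψ (g * x) = ψ g) (g : Γ) :
    cOf f hf ψ (f g) = ψ g := by
  unfold cOf
  have h1 : f (Function.surjInv hf (f g)) = f g := Function.surjInv_eq hf (f g)
  have h2 : g⁻¹ * Function.surjInv hf (f g) ∈ f.ker := by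
    rw [MonoidHom.mem_ker, map_mul, map_inv, h1, inv_mul_cancel]
  have h3 := hψN g _ h2
  rwa [mul_inv_cancel_left] at h3

variable (rbar : Γ →* GL (Fin 2) k) (hr : f.ker ≤ rbar.ker)

theorem act_piOf (g : Γ) (X : Mat2 k) : act (piOf f hf rbar hr) (f g) X = act rbar g X := by
  rw [act_apply, act_apply, piOf_apply]

theorem isCocycle_cOf {ψ : Γ → Mat2 k} (hψ : IsCocycle rbar ψ)
    (hψN : ∀ g, ∀ x ∈ f.ker, ψ (g * x) = ψ g) :
    IsCocycle (piOf f hf rbar hr) (cOf f hf ψ) where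
  mem γ := hψ.mem _
  map_mul γ δ := by
    obtain ⟨g, rfl⟩ := hf γ
    obtain ⟨h, rfl⟩ := hf δ
    rw [← map_mul, cOf_apply f hf ψ hψN, cOf_apply f hf ψ hψN, cOf_apply f hf ψ hψN, act_piOf,
      hψ.map_mul]

theorem not_isCoboundary_cOf {ψ : Γ → Mat2 k} (hψN : ∀ g, ∀ x ∈ f.ker, ψ (g * x) = ψ g)
    (hnc : ¬ IsCoboundary rbar ψ) : ¬ IsCoboundary (piOf f hf rbar hr) (cOf f hf ψ) := by
  rintro ⟨m, hm, h⟩
  refine hnc ⟨m, hm, fun g => ?_⟩
  have := h (f g)
  rwa [cOf_apply f hf ψ hψN, act_piOf] at this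

end Descend

/-! ### The level -/

section Level

variable {k : Type} [Field k]

/-- a finite Galois level containing `μ_{p^(n+1)}`, a given finite level, and through which `ρbar`
factors -/
theorem exists_level (p n : ℕ) [Fact p.Prime] (ρbar : ResidualGaloisRep k)
    (L₀ : IntermediateField ℚ Qb) [FiniteDimensional ℚ L₀] :
    ∃ L : IntermediateField ℚ Qb, FiniteDimensional ℚ L ∧ Normal ℚ L ∧ L₀ ≤ L ∧
      (∀ t : Qb, t ^ p ^ (n + 1) = 1 → t ∈ L) ∧
      (∀ g : Qb ≃ₐ[ℚ] Qb, (∀ x ∈ L, g x = x) → ρbar.ρ g = 1) := by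
  haveI : NeZero (p ^ (n + 1)) := ⟨pow_ne_zero _ (Fact.out : p.Prime).ne_zero⟩
  obtain ⟨L₁, hL₁, h1⟩ := ρbar.factorsThroughFiniteLevel
  obtain ⟨ζ, hζ⟩ := CycChar.exists_primitiveRoot (p ^ (n + 1))
  have halg : Algebra.IsAlgebraic ℚ Qb := AlgebraicClosure.isAlgebraic ℚ
  have hint : IsIntegral ℚ ζ := (halg.isAlgebraic ζ).isIntegral
  haveI : FiniteDimensional ℚ (IntermediateField.adjoin ℚ {ζ}) :=
    IntermediateField.adjoin.finiteDimensional hint
  haveI : FiniteDimensional ℚ ↥(L₀ ⊔ L₁) := IntermediateField.finiteDimensional_sup L₀ L₁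
  set F : IntermediateField ℚ Qb := (L₀ ⊔ L₁) ⊔ IntermediateField.adjoin ℚ {ζ} with hF
  haveI : FiniteDimensional ℚ F := IntermediateField.finiteDimensional_sup _ _
  haveI : IsAlgClosure ℚ Qb := ⟨inferInstance, halg⟩
  haveI : Normal ℚ Qb := IsAlgClosure.normal ℚ Qb
  refine ⟨IntermediateField.normalClosure ℚ F Qb, normalClosure.is_finiteDimensional ℚ F Qb,
    normalClosure.normal ℚ F Qb, ?_, ?_, ?_⟩
  · exact le_trans (le_trans le_sup_left le_sup_left) (IntermediateField.le_normalClosure F)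
  · intro t ht
    obtain ⟨i, -, rfl⟩ := hζ.eq_pow_of_pow_eq_one ht
    apply IntermediateField.le_normalClosure F
    apply (le_sup_right : IntermediateField.adjoin ℚ {ζ} ≤ F)
    exact pow_mem (IntermediateField.mem_adjoin_simple_self ℚ ζ) i
  · intro g hg
    apply h1
    intro x hx
    apply hg
    apply IntermediateField.le_normalClosure F
    exact (le_trans le_sup_right le_sup_left : L₁ ≤ F) hx

end Level

/-! ### The hypotheses `TWHyp` at a finite Galois level -/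

section Hyp

variable {k : Type} [Field k] (p : ℕ) [Fact p.Prime] [CharP k p]
  (ρbar : ResidualGaloisRep k) (b : Module.Basis (Fin 2) k ρbar.V)
  (rbar : (Qb ≃ₐ[ℚ] Qb) →* GL (Fin 2) k)
  (hb : ∀ g, (rbar g : Mat2 k) = LinearMap.toMatrix b b (ρbar.ρ g))

theorem rbar_eq_one {g : Qb ≃ₐ[ℚ] Qb} (hg : ρbar.ρ g = 1)
    (hb : ∀ g, (rbar g : Mat2 k) = LinearMap.toMatrix b b (ρbar.ρ g)) : rbar g = 1 := by
  apply Units.ext
  rw [hb g, hg, Units.val_one]
  exact LinearMap.toMatrix_one b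

theorem charpoly_rbar (g : Qb ≃ₐ[ℚ] Qb)
    (hb : ∀ g, (rbar g : Mat2 k) = LinearMap.toMatrix b b (ρbar.ρ g)) :
    (rbar g : Mat2 k).charpoly = LinearMap.charpoly (ρbar.ρ g) := by
  rw [hb g, LinearMap.charpoly_toMatrix]

variable (L : IntermediateField ℚ Qb) [FiniteDimensional ℚ L] [IsGalois ℚ L]

theorem res_surjective : Function.Surjective (Dict.res L) := by
  haveI : IsAlgClosure ℚ Qb := ⟨inferInstance, AlgebraicClosure.isAlgebraic ℚ⟩
  haveI : Normal ℚ Qb := IsAlgClosure.normal ℚ Qb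
  exact AlgEquiv.restrictNormalHom_surjective Qb

theorem mem_ker_res_iff (g : Qb ≃ₐ[ℚ] Qb) : g ∈ (Dict.res L).ker ↔ ∀ x ∈ L, g x = x := by
  rw [MonoidHom.mem_ker, ← map_one (Dict.res L), Dict.res_eq_iff]
  simp

variable (n : ℕ)

/-- **the hypotheses of the group-theoretic block hold at every finite Galois level** through which
`ρbar` and the cyclotomic character mod `p^(n+1)` factor -/
theorem twHyp (habs : ρbar.IsAbsolutelyIrreducible)
    (hdet : (GaloisRepAdic.ofResidualGaloisRep ρbar).DetIsCyclotomic p)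
    (hsplit : ∀ σ : Qb ≃ₐ[ℚ] Qb,
      ∃ α β : k, LinearMap.charpoly (ρbar.ρ σ) = (X - C α) * (X - C β))
    (hTW : ∀ (K : Type) [Field K] [Algebra k K] (G : Subgroup (Qb ≃ₐ[ℚ] Qb)), G.index = 2 →
      ∀ V : Submodule K (ρbar.baseChange K).V,
        (∀ σ ∈ G, ∀ x ∈ V, (ρbar.baseChange K).ρ σ x ∈ V) → V = ⊥ ∨ V = ⊤)
    (hb : ∀ g, (rbar g : Mat2 k) = LinearMap.toMatrix b b (ρbar.ρ g))
    (hr : (Dict.res L).ker ≤ rbar.ker)
    (hχ : haveI : NeZero (p ^ (n + 1)) := ⟨pow_ne_zero _ (Fact.out : p.Prime).ne_zero⟩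
      (Dict.res L).ker ≤ (CycChar.chi (p ^ (n + 1))).ker) :
    haveI : NeZero (p ^ (n + 1)) := ⟨pow_ne_zero _ (Fact.out : p.Prime).ne_zero⟩
    TWHyp p n (piOf (Dict.res L) (res_surjective L) rbar hr)
      (piOf (Dict.res L) (res_surjective L) (CycChar.chi (p ^ (n + 1))) hχ) := by
  haveI : NeZero (p ^ (n + 1)) := ⟨pow_ne_zero _ (Fact.out : p.Prime).ne_zero⟩
  have hf := res_surjective L
  refine ⟨?_, ?_, ?_, ?_⟩
  · -- det
    intro γ
    obtain ⟨g, rfl⟩ := hf γ
    rw [piOf_apply, piOf_apply]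
    have h1 := CycChar.det_eq_chi p ρbar hdet n g
    have h2 : ((rbar g : GL (Fin 2) k).det : k) = LinearMap.det (ρbar.ρ g) := by
      rw [Matrix.GeneralLinearGroup.val_det_apply, hb g, LinearMap.det_toMatrix]
    rw [h2, h1, ZMod.castHom_apply, ZMod.natCast_val]
  · -- surjectivity
    intro u
    obtain ⟨g, hg⟩ := CycChar.chi_surjective (p ^ (n + 1)) u
    exact ⟨Dict.res L g, by rw [piOf_apply, hg]⟩
  · -- split
    intro γ
    obtain ⟨g, rfl⟩ := hf γ
    rw [piOf_apply, charpoly_rbar ρbar b rbar g hb]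
    exact hsplit g
  · -- irreducibility
    intro H hH K _ _ v hv hcon
    have hidx : (H.comap (Dict.res L)).index = H.index := Subgroup.index_comap_of_surjective H hf
    refine Irr.irr_of_habs_hTW ρbar b habs hTW (H.comap (Dict.res L)) (by rw [hidx]; exact hH) K v hv
      (fun σ hσ => ?_)
    obtain ⟨μ, hμ⟩ := hcon (Dict.res L σ) hσ
    refine ⟨μ, ?_⟩
    rw [piOf_apply, hb σ] at hμ
    exact hμ

end Hyp

/-! ### The export of block (a5) -/

section Main

variable {k : Type} [Field k] [Finite k] (p : ℕ) [Fact p.Prime] [CharP k p]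

theorem coprime_of_pow_mul_eq {G : Type} [Group G] [Finite G] {x : G} {m j : ℕ}
    (h : x ^ (m * j) = x) : Nat.Coprime m (orderOf x) := by
  have hfin : IsOfFinOrder x := isOfFinOrder_of_finite x
  have h1 : x ^ (m * j) = x ^ 1 := by rw [h, pow_one]
  have h2 := hfin.pow_eq_pow_iff_modEq.mp h1
  have h3 : Nat.gcd (m * j) (orderOf x) = Nat.gcd 1 (orderOf x) := h2.gcd_eq
  rw [Nat.gcd_one_left] at h3
  exact Nat.Coprime.coprime_mul_right h3

/-- **The export of block (a5)**: Taylor–Wiles primes detecting a given non-trivial class.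

`hMain` is the main theorem `twSet_nonempty` of the group-theoretic block `S56/Grp`. -/
theorem exists_tw_prime_of_cocycle (ρbar : ResidualGaloisRep k)
    (habs : ρbar.IsAbsolutelyIrreducible)
    (hdet : (GaloisRepAdic.ofResidualGaloisRep ρbar).DetIsCyclotomic p)
    (hsplit : ∀ σ : Qb ≃ₐ[ℚ] Qb,
      ∃ α β : k, LinearMap.charpoly (ρbar.ρ σ) = (X - C α) * (X - C β))
    (hTW : ∀ (K : Type) [Field K] [Algebra k K] (G : Subgroup (Qb ≃ₐ[ℚ] Qb)), G.index = 2 →
      ∀ V : Submodule K (ρbar.baseChange K).V,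
        (∀ σ ∈ G, ∀ x ∈ V, (ρbar.baseChange K).ρ σ x ∈ V) → V = ⊥ ∨ V = ⊤)
    (b : Module.Basis (Fin 2) k ρbar.V) (rbar : (Qb ≃ₐ[ℚ] Qb) →* GL (Fin 2) k)
    (hb : ∀ g, (rbar g : Mat2 k) = LinearMap.toMatrix b b (ρbar.ρ g)) (n : ℕ)
    (hMain : ∀ (G : Type) [Group G] [Finite G] (π : G →* GL (Fin 2) k)
      (χ : G →* (ZMod (p ^ (n + 1)))ˣ), TWHyp p n π χ → ∀ c : G → Mat2 k, IsCocycle π c →
        ¬ IsCoboundary π c → (twSet π χ c).Nonempty)
    (ψ : (Qb ≃ₐ[ℚ] Qb) → Mat2 k) (hψ : IsCocycle rbar ψ)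
    (L₀ : IntermediateField ℚ Qb) [FiniteDimensional ℚ L₀]
    (hψL : ∀ g x : Qb ≃ₐ[ℚ] Qb, (∀ y ∈ L₀, x y = y) → ψ (g * x) = ψ g)
    (hnc : ¬ IsCoboundary rbar ψ) (S : Finset ℕ) :
    ∃ l : ℕ, l.Prime ∧ l ∉ S ∧ l ≠ p ∧ p ^ (n + 1) ∣ l - 1 ∧
      ∀ P : ValuationSubring Qb, P.LiesOverPrime l →
        (∀ g ∈ P.inertiaSubgroupIn ℚ, ρbar.ρ g = 1 ∧ ψ g = 0) ∧
        ∀ φ : Qb ≃ₐ[ℚ] Qb, P.IsFrobeniusAt φ l →
          (∃ α' β' : k, α' ≠ β' ∧
            LinearMap.charpoly (ρbar.ρ φ) = (X - C α') * (X - C β')) ∧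
          ∀ m ∈ ad0 k, ψ φ ≠ act rbar φ m - m := by
  classical
  haveI : NeZero (p ^ (n + 1)) := ⟨pow_ne_zero _ (Fact.out : p.Prime).ne_zero⟩
  obtain ⟨L, hLfin, hLnorm, hL₀, hLμ, hLρ⟩ := exists_level p n ρbar L₀
  haveI := hLfin
  haveI := hLnorm
  haveI : IsGalois ℚ L := ⟨⟩
  have hf := res_surjective L
  -- the kernel conditions
  have hr : (Dict.res L).ker ≤ rbar.ker := by
    intro g hg
    rw [MonoidHom.mem_ker]
    exact rbar_eq_one ρbar b rbar (hLρ g ((mem_ker_res_iff L g).mp hg)) hb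
  have hχ : (Dict.res L).ker ≤ (CycChar.chi (p ^ (n + 1))).ker := by
    intro g hg
    rw [MonoidHom.mem_ker, CycChar.chi_eq_one_iff]
    intro t ht
    exact (mem_ker_res_iff L g).mp hg t (hLμ t ht)
  have hψN : ∀ g, ∀ x ∈ (Dict.res L).ker, ψ (g * x) = ψ g := by
    intro g x hx
    exact hψL g x fun y hy => (mem_ker_res_iff L x).mp hx y (hL₀ hy)
  -- the group-theoretic block
  set π := piOf (Dict.res L) hf rbar hr with hπ
  set χ := piOf (Dict.res L) hf (CycChar.chi (p ^ (n + 1))) hχ with hχdef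
  set c := cOf (Dict.res L) hf ψ with hc
  have hH : TWHyp p n π χ := twHyp p ρbar b rbar L n habs hdet hsplit hTW hb hr hχ
  have hcoc : IsCocycle π c := isCocycle_cOf (Dict.res L) hf rbar hr hψ hψN
  have hncG : ¬ IsCoboundary π c := not_isCoboundary_cOf (Dict.res L) hf rbar hr hψN hnc
  obtain ⟨σbar, hσbar⟩ := hMain (↥L ≃ₐ[ℚ] ↥L) π χ hH c hcoc hncG
  obtain ⟨σ, rfl⟩ := hf σbar
  -- the Chebotarev prime
  obtain ⟨l, hl, hlS, h⟩ := Dict.exists_prime_forall_frobenius L σ (insert p S)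
  have hlp : l ≠ p := fun e => hlS (e ▸ Finset.mem_insert_self _ _)
  have hlS' : l ∉ S := fun e => hlS (Finset.mem_insert_of_mem e)
  -- every Frobenius element lands in the Taylor–Wiles set
  have key : ∀ P : ValuationSubring Qb, P.LiesOverPrime l → ∀ φ : Qb ≃ₐ[ℚ] Qb,
      P.IsFrobeniusAt φ l → Dict.res L φ ∈ twSet π χ c := by
    intro P hP φ hφ
    obtain ⟨τ, m, j, h1, h2⟩ := (h P hP).2 φ hφ
    have e1 : Dict.res L φ = Dict.res L τ * Dict.res L σ ^ m * (Dict.res L τ)⁻¹ := by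
      rw [(Dict.res_eq_iff L _ _).mpr h1, map_pow, map_mul, map_mul, map_inv, conj_pow]
    have e2 : Dict.res L σ ^ (m * j) = Dict.res L σ := by
      have h3 := (Dict.res_eq_iff L _ _).mpr h2
      rw [map_pow, e1, conj_pow, map_mul, map_mul, map_inv, ← pow_mul] at h3
      have h4 := congrArg (fun u => (Dict.res L τ)⁻¹ * u * Dict.res L τ) h3
      simpa [mul_assoc] using h4
    rw [e1]
    exact twSet_conj_pow π χ c hcoc _ hσbar _ m (coprime_of_pow_mul_eq e2)
  have hfix : ∀ P : ValuationSubring Qb, P.LiesOverPrime l → ∀ φ : Qb ≃ₐ[ℚ] Qb,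
      P.IsFrobeniusAt φ l → ∀ t : Qb, t ^ p ^ (n + 1) = 1 → φ t = t := by
    intro P hP φ hφ
    have h1 := (key P hP φ hφ).1
    rw [hχdef, piOf_apply] at h1
    exact (CycChar.chi_eq_one_iff (p ^ (n + 1)) φ).mp h1
  refine ⟨l, hl, hlS', hlp, ?_, fun P hP => ⟨fun g hg => ?_, fun φ hφ => ⟨?_, ?_⟩⟩⟩
  · obtain ⟨P, φ, hP, hφ⟩ :=
      Fermat.Agent.Lib.FrobeniusExists.exists_valuationSubring_isFrobeniusAt l hl
    exact TW.pow_dvd_sub_one_of_fixes p hl hlp (n + 1) hP hφ (hfix P hP φ hφ)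
  · have hgL := (h P hP).1 g hg
    refine ⟨hLρ g hgL, ?_⟩
    have h1 := hψL 1 g fun y hy => hgL y (hL₀ hy)
    rw [one_mul, hψ.map_one] at h1
    exact h1
  · obtain ⟨a, b', hab, hch⟩ := (key P hP φ hφ).2.1
    rw [hπ, piOf_apply, charpoly_rbar ρbar b rbar φ hb] at hch
    exact ⟨a, b', hab, hch⟩
  · intro m hm
    have h1 := (key P hP φ hφ).2.2 m hm
    rw [hc, cOf_apply (Dict.res L) hf ψ hψN, hπ, act_piOf] at h1
    exact h1

end Main

end Fermat.Agent.S56.Cheb.Galois.Wrapper
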