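import Mathlib
import Fermat.Agent.S56.Coh.CocDefs
import Fermat.Agent.S56.Cheb.Galois.Wrapper

/-!
# PROJECT T (S56), block (a5): the export in the language of `S56/Coh` (chief post #3958 (3) [a5])

For every `n`, every `ψ ∈ Z1g (MrepTw rbar) \ B1g (MrepTw rbar)` and every finite `T` there is a
prime `l ∉ T`, `l ≠ p`, `p ^ (n + 1) ∣ l - 1`, with `ρbar` unramified at `l`, such that for ALL places
`P` over `l` and ALL Frobenius elements `φ` at `P`: `ρbar φ` has two distinct eigenvalues in `k`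
and `ψ φ` is not of the form `φ • w - w`.
-/

set_option autoImplicit false
set_option linter.unusedSectionVars false
set_option linter.style.haveILetI false

noncomputable section

namespace Fermat.Agent.S56.Cheb.Galois.Export

open Polynomial Matrix
open Fermat.Agent.CFT.LC Fermat.Agent.CFT.Bridge Fermat.Agent.S56.Coh Fermat.Agent.S56.Coh.CocDefs
open Fermat.Agent.S56.Grp

local notation "Mat2" => Matrix (Fin 2) (Fin 2)

variable {k : Type} [Field k] (rbar : GQ →* GL (Fin 2) k)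

/-- the matrix-valued function underlying a function with values in `M' = MrepTw rbar` -/
def matOf (ψ : GQ → MrepTw rbar) : GQ → Mat2 k := fun g => ((ψ g : sl2 k) : Mat2 k)

theorem matOf_apply (ψ : GQ → MrepTw rbar) (g : GQ) : matOf rbar ψ g = ((ψ g : sl2 k) : Mat2 k) :=
  rfl

theorem mem_ad0_of_sl2 (X : sl2 k) : (X : Mat2 k) ∈ ad0 k := X.2

/-- the action of `S56/Grp` is the action of `MrepTw` -/
theorem act_eq (g : GQ) (X : MrepTw rbar) :
    act rbar g ((X : sl2 k) : Mat2 k) = (((MrepTw rbar).ρ g X : sl2 k) : Mat2 k) := by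
  rw [MrepTw_ρ_coe, act_apply, Matrix.GeneralLinearGroup.val_det_apply]

theorem isCocycle_matOf {ψ : GQ → MrepTw rbar} (hψ : ψ ∈ Z1g (MrepTw rbar)) :
    IsCocycle rbar (matOf rbar ψ) where
  mem g := mem_ad0_of_sl2 _
  map_mul g h := by
    have h1 := ((mem_Z1g_iff ψ).mp hψ).1 g h
    rw [matOf_apply, matOf_apply, matOf_apply, act_eq, h1, add_comm]
    rfl

theorem exists_level_matOf {ψ : GQ → MrepTw rbar} (hψ : ψ ∈ Z1g (MrepTw rbar)) :
    ∃ L₀ : IntermediateField ℚ Qbar, FiniteDimensional ℚ L₀ ∧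
      ∀ g x : GQ, (∀ y ∈ L₀, x y = y) → matOf rbar ψ (g * x) = matOf rbar ψ g := by
  obtain ⟨U, ⟨-, F, hF, rfl⟩, h1, -⟩ := ((mem_Z1g_iff ψ).mp hψ).2
  refine ⟨F, hF, fun g x hx => ?_⟩
  have hxU : x ∈ F.fixingSubgroup := (IntermediateField.mem_fixingSubgroup_iff _ _).mpr hx
  rw [matOf_apply, matOf_apply, h1 g x hxU]

theorem not_isCoboundary_matOf (hfin : GaloisFactorsThroughFiniteLevel rbar)
    {ψ : GQ → MrepTw rbar} (hnc : ψ ∉ B1g (MrepTw rbar)) :
    ¬ IsCoboundary rbar (matOf rbar ψ) := by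
  rintro ⟨m, hm, h⟩
  apply hnc
  obtain ⟨F, hF, h1⟩ := hfin
  haveI := hF
  obtain ⟨U, hU, hUF⟩ := exists_levelAll_le F
  let a : MrepTw rbar := (⟨m, hm⟩ : sl2 k)
  refine (mem_B₁_iff ψ).2 ⟨a, ⟨U, hU, fun s hs => ?_⟩, ?_⟩
  · have hs' : ∀ x ∈ F, s x = x := fun x hx => (hUF hs) ⟨x, hx⟩
    apply Subtype.ext
    rw [MrepTw_ρ_coe, h1 s hs']
    simp
  · funext g
    apply Subtype.ext
    have h2 := h g
    rw [matOf_apply] at h2
    rw [h2]
    have h3 : (ModuleCat.Hom.hom (groupCohomology.d₀₁ (MrepTw rbar))) a g =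
        (MrepTw rbar).ρ g a - a := rfl
    rw [h3]
    show (((MrepTw rbar).ρ g a : sl2 k) : Mat2 k) - ((a : sl2 k) : Mat2 k) = _
    rw [← act_eq]

variable [Finite k] (p : ℕ) [Fact p.Prime] [CharP k p]

/-- **The export of block (a5) in the language of `S56/Coh`.**
`hMain` is the main theorem `twSet_nonempty` of the group-theoretic block `S56/Grp`. -/
theorem exists_tw_prime_of_mem_Z1g (ρbar : ResidualGaloisRep k)
    (habs : ρbar.IsAbsolutelyIrreducible)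
    (hdet : (GaloisRepAdic.ofResidualGaloisRep ρbar).DetIsCyclotomic p)
    (hsplit : ∀ σ : GQ, ∃ α β : k, LinearMap.charpoly (ρbar.ρ σ) = (X - C α) * (X - C β))
    (hTW : ∀ (K : Type) [Field K] [Algebra k K] (G : Subgroup GQ), G.index = 2 →
      ∀ V : Submodule K (ρbar.baseChange K).V,
        (∀ σ ∈ G, ∀ x ∈ V, (ρbar.baseChange K).ρ σ x ∈ V) → V = ⊥ ∨ V = ⊤)
    (b : Module.Basis (Fin 2) k ρbar.V)
    (hb : ∀ g, (rbar g : Mat2 k) = LinearMap.toMatrix b b (ρbar.ρ g)) (n : ℕ)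
    (hMain : ∀ (G : Type) [Group G] [Finite G] (π : G →* GL (Fin 2) k)
      (χ : G →* (ZMod (p ^ (n + 1)))ˣ), TWHyp p n π χ → ∀ c : G → Mat2 k, IsCocycle π c →
        ¬ IsCoboundary π c → (twSet π χ c).Nonempty)
    (ψ : GQ → MrepTw rbar) (hψ : ψ ∈ Z1g (MrepTw rbar)) (hnc : ψ ∉ B1g (MrepTw rbar))
    (T : Finset ℕ) :
    ∃ l : ℕ, l.Prime ∧ l ∉ T ∧ l ≠ p ∧ p ^ (n + 1) ∣ l - 1 ∧ ρbar.IsUnramifiedAt l ∧
      ∀ P : ValuationSubring Qbar, P.LiesOverPrime l →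
        (∀ g ∈ P.inertiaSubgroupIn ℚ, ψ g = 0) ∧
        ∀ φ : GQ, P.IsFrobeniusAt φ l →
          (∃ α β : k, α ≠ β ∧ LinearMap.charpoly (ρbar.ρ φ) = (X - C α) * (X - C β)) ∧
          ¬ ∃ w : MrepTw rbar, ψ φ = (MrepTw rbar).ρ φ w - w := by
  have hfin : GaloisFactorsThroughFiniteLevel rbar := by
    obtain ⟨F, hF, h1⟩ := ρbar.factorsThroughFiniteLevel
    exact ⟨F, hF, fun σ hσ => Wrapper.rbar_eq_one ρbar b rbar (h1 σ hσ) hb⟩
  obtain ⟨L₀, hL₀, hψL⟩ := exists_level_matOf rbar hψ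
  haveI := hL₀
  obtain ⟨l, hl, hlT, hlp, hdvd, h⟩ :=
    Wrapper.exists_tw_prime_of_cocycle p ρbar habs hdet hsplit hTW b rbar hb n hMain
      (matOf rbar ψ) (isCocycle_matOf rbar hψ) L₀ hψL (not_isCoboundary_matOf rbar hfin hnc) T
  refine ⟨l, hl, hlT, hlp, hdvd, fun P hP g hg => ((h P hP).1 g hg).1, fun P hP => ⟨?_, ?_⟩⟩
  · intro g hg
    apply Subtype.ext
    exact ((h P hP).1 g hg).2
  · intro φ hφ
    refine ⟨((h P hP).2 φ hφ).1, ?_⟩
    rintro ⟨w, hw⟩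
    refine ((h P hP).2 φ hφ).2 ((w : sl2 k) : Mat2 k) (mem_ad0_of_sl2 _) ?_
    rw [matOf_apply, hw, act_eq]
    rfl

end Fermat.Agent.S56.Cheb.Galois.Export
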